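import Fermat.Statements.S49
import Fermat.Prelude.Thm_CuspForm_intLattice_fg
import Fermat.Prelude.Thm_CuspForm_mem_intLattice_of_coe_eq_heckeT
import Fermat.Prelude.Thm_CuspForm_mem_intLattice_of_coe_eq_heckeU
import Fermat.Prelude.Thm_ModularFormClass_qCoeff_heckeT
import Fermat.Prelude.Thm_ModularFormClass_qCoeff_heckeU
import Fermat.Prelude.Thm_UpperHalfPlane_eq_of_forall_qCoeff_eq
import Fermat.Prelude.Thm_CongruenceSubgroup_one_mem_strictPeriods_Gamma0
import Fermat.Prelude.Def_CuspForm_HeckeAlgebra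

set_option autoImplicit false

namespace Fermat.Agent.S49

open ModularFormClass CongruenceSubgroup UpperHalfPlane

variable {N : ℕ} {k : ℤ}

theorem hΓ (N : ℕ) :
    (1 : ℝ) ∈ (Subgroup.map (Matrix.SpecialLinearGroup.mapGL ℝ) (Gamma0 N)).strictPeriods :=
  CongruenceSubgroup.one_mem_strictPeriods_Gamma0 N

theorem qc_add (f g : CuspForm (Gamma0 N) k) (n : ℕ) :
    qCoeff ⇑(f + g) n = qCoeff ⇑f n + qCoeff ⇑g n := by
  simp only [qCoeff, FunLike.coe_add]
  rw [ModularForm.qExpansion_add one_pos (hΓ N) f g, map_add]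

theorem qc_smul (c : ℂ) (f : CuspForm (Gamma0 N) k) (n : ℕ) :
    qCoeff ⇑(c • f) n = c * qCoeff ⇑f n := by
  have h1 : ⇑(c • f) = c • ⇑f := by ext z; simp
  simp only [qCoeff, h1]
  rw [ModularForm.qExpansion_smul one_pos (hΓ N) c f]
  simp

theorem qc_zero (n : ℕ) : qCoeff ⇑(0 : CuspForm (Gamma0 N) k) n = 0 := by
  simp only [qCoeff, FunLike.coe_zero]
  rw [UpperHalfPlane.qExpansion_zero, map_zero]

theorem qc_neg (f : CuspForm (Gamma0 N) k) (n : ℕ) :
    qCoeff ⇑(-f) n = - qCoeff ⇑f n := by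
  have h : -f = (-1 : ℂ) • f := by simp
  rw [h, qc_smul]; ring

theorem qc_sub (f g : CuspForm (Gamma0 N) k) (n : ℕ) :
    qCoeff ⇑(f - g) n = qCoeff ⇑f n - qCoeff ⇑g n := by
  rw [sub_eq_add_neg, qc_add, qc_neg]; ring

theorem qc_cusp (f : CuspForm (Gamma0 N) k) : qCoeff ⇑f 0 = 0 :=
  CuspFormClass.qExpansion_coeff_zero f one_pos (hΓ N)

theorem qc_ext {f g : CuspForm (Gamma0 N) k} (h : ∀ n, qCoeff ⇑f n = qCoeff ⇑g n) : f = g := by
  have hcusp : Fact (IsCusp OnePoint.infty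
      (Subgroup.map (Matrix.SpecialLinearGroup.mapGL ℝ) (Gamma0 N))) :=
    ⟨Subgroup.isCusp_of_mem_strictPeriods one_pos (hΓ N)⟩
  apply DFunLike.coe_injective
  exact UpperHalfPlane.eq_of_forall_qCoeff_eq
    (SlashInvariantFormClass.periodic_comp_ofComplex f (hΓ N)) (ModularFormClass.holo f)
    (ModularFormClass.bdd_at_infty f)
    (SlashInvariantFormClass.periodic_comp_ofComplex g (hΓ N)) (ModularFormClass.holo g)
    (ModularFormClass.bdd_at_infty g) h

theorem qc_heckeT {p : ℕ} (hp : p.Prime) (hpN : ¬ p ∣ N) (f : CuspForm (Gamma0 N) k) (n : ℕ) :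
    qCoeff ⇑(CuspForm.heckeTLin k hp hpN f) n
      = qCoeff ⇑f (n * p) + if p ∣ n then (p : ℂ) ^ (k - 1) * qCoeff ⇑f (n / p) else 0 := by
  rw [CuspForm.coe_heckeTLin_apply, ModularFormClass.qCoeff_heckeT f (hΓ N) hp.ne_zero n]
  rfl

theorem qc_heckeU [NeZero N] {p : ℕ} (hp : p.Prime) (hpN : p ∣ N) (f : CuspForm (Gamma0 N) k)
    (n : ℕ) :
    qCoeff ⇑(CuspForm.heckeULin k hpN f) n = qCoeff ⇑f (n * p) := by
  rw [CuspForm.coe_heckeULin_apply, ModularFormClass.qCoeff_heckeU f (hΓ N) hp.ne_zero n]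
  rfl


theorem eigensystem_prime_pow_mul {R : Type*} [CommRing R] (e c : ℕ → R)
    (h : FormalHecke.IsEigensystem e c) (p : ℕ) (hp : p.Prime) (n : ℕ) (hn : ¬ p ∣ n) :
    ∀ k : ℕ, c (p ^ k * n) = c (p ^ k) * c n ∧ c (p ^ (k + 1) * n) = c (p ^ (k + 1)) * c n := by
  obtain ⟨h1, hrel⟩ := h
  intro k
  induction k with
  | zero =>
    refine ⟨by simp [h1], ?_⟩
    have := hrel p hp n
    rw [if_neg hn, mul_zero, add_zero] at this
    simpa using this
  | succ k ih =>
    refine ⟨ih.2, ?_⟩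
    have e1 := hrel p hp (p ^ (k + 1) * n)
    have e2 := hrel p hp (p ^ (k + 1))
    have hd1 : p ∣ p ^ (k + 1) * n := Dvd.dvd.mul_right (dvd_pow_self p (Nat.succ_ne_zero k)) n
    have hd2 : p ∣ p ^ (k + 1) := dvd_pow_self p (Nat.succ_ne_zero k)
    rw [if_pos hd1] at e1
    rw [if_pos hd2] at e2
    have q1 : p ^ (k + 1) * n / p = p ^ k * n := by
      rw [pow_succ, mul_comm (p ^ k) p, mul_assoc, Nat.mul_div_cancel_left _ hp.pos]
    have q2 : p ^ (k + 1) / p = p ^ k := by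
      rw [pow_succ, Nat.mul_div_cancel _ hp.pos]
    rw [q1] at e1
    rw [q2] at e2
    have r1 : p * (p ^ (k + 1) * n) = p ^ (k + 1 + 1) * n := by ring
    have r2 : p * p ^ (k + 1) = p ^ (k + 1 + 1) := by ring
    rw [r1] at e1
    rw [r2] at e2
    rw [ih.1, ih.2] at e1
    linear_combination e1 - c n * e2

theorem eigensystem_mul_of_coprime {R : Type*} [CommRing R] (e c : ℕ → R)
    (h : FormalHecke.IsEigensystem e c) :
    ∀ m n : ℕ, m.Coprime n → c (m * n) = c m * c n := by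
  intro m
  induction m using Nat.recOnPosPrimePosCoprime with
  | prime_pow p k hp hk =>
    intro n hmn
    have hpn : ¬ p ∣ n := by
      intro hdvd
      have := Nat.Coprime.coprime_dvd_left (dvd_pow_self p hk.ne') hmn
      exact hp.one_lt.ne' (Nat.Coprime.eq_one_of_dvd this hdvd)
    exact (eigensystem_prime_pow_mul e c h p hp n hpn k).1
  | zero =>
    intro n hmn
    have : n = 1 := by simpa using hmn
    subst this
    simp [h.1]
  | one => intro n _; simp [h.1]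
  | coprime a b ha hb hab iha ihb =>
    intro n hmn
    have han : a.Coprime n := Nat.Coprime.coprime_dvd_left (Dvd.intro b rfl) hmn
    have hbn : b.Coprime n := Nat.Coprime.coprime_dvd_left (Dvd.intro_left a rfl) hmn
    rw [mul_assoc, iha (b * n) (Nat.Coprime.mul_right hab han), ihb n hbn, iha b hab, mul_assoc]

end Fermat.Agent.S49
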