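import Mathlib

set_option autoImplicit false

namespace Fermat.Agent.S49

open Module

/-- A nonzero simultaneous generalized eigenspace of a commuting family contains a
simultaneous eigenvector. -/
theorem exists_common_eigenvector {V : Type} [AddCommGroup V] [Module ℂ V]
    [FiniteDimensional ℂ V] {ι : Type} (T : ι → Module.End ℂ V)
    (hcomm : ∀ i j, Commute (T i) (T j)) (χ : ι → ℂ)
    (h : ⨅ i, (T i).maxGenEigenspace (χ i) ≠ ⊥) :
    ∃ v : V, v ≠ 0 ∧ ∀ i, T i v = χ i • v := by
  classical
  set W₀ := ⨅ i, (T i).maxGenEigenspace (χ i) with hW₀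
  let 𝒮 : Set (Submodule ℂ V) := {U | U ≠ ⊥ ∧ U ≤ W₀ ∧ ∀ i, ∀ u ∈ U, T i u ∈ U}
  have hW₀mem : W₀ ∈ 𝒮 := by
    refine ⟨h, le_rfl, fun i u hu => ?_⟩
    rw [hW₀, Submodule.mem_iInf] at hu ⊢
    intro j
    exact Module.End.mapsTo_maxGenEigenspace_of_comm (hcomm j i) (χ j) (hu j)
  obtain ⟨U, hU, hmin⟩ := (wellFounded_lt (α := Submodule ℂ V)).has_min 𝒮 ⟨W₀, hW₀mem⟩
  obtain ⟨hUne, hUle, hUinv⟩ := hU
  have key : ∀ i, ∀ u ∈ U, T i u = χ i • u := by
    intro i
    let S : Module.End ℂ V := T i - χ i • (1 : Module.End ℂ V)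
    have hSapp : ∀ x, S x = T i x - χ i • x := fun x => by
      simp [S]
    have hinvS : ∀ (n : ℕ), ∀ w ∈ U, (S ^ n) w ∈ U := by
      intro n
      induction n with
      | zero => intro w hw; simpa using hw
      | succ n ih =>
        intro w hw
        rw [pow_succ', Module.End.mul_apply, hSapp]
        have := ih w hw
        exact U.sub_mem (hUinv i _ this) (U.smul_mem _ this)
    let U' : Submodule ℂ V := U ⊓ LinearMap.ker S
    have hU'mem : U' ∈ 𝒮 := by
      refine ⟨?_, inf_le_left.trans hUle, ?_⟩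
      · obtain ⟨u, huU, hu0⟩ := Submodule.exists_mem_ne_zero_of_ne_bot hUne
        have hu : u ∈ (T i).maxGenEigenspace (χ i) := by
          have := hUle huU
          rw [hW₀, Submodule.mem_iInf] at this
          exact this i
        rw [Module.End.mem_maxGenEigenspace] at hu
        have hk : (S ^ (Nat.find hu)) u = 0 := Nat.find_spec hu
        have hk0 : Nat.find hu ≠ 0 := by
          intro hk0
          rw [hk0] at hk
          simp at hk
          exact hu0 hk
        obtain ⟨k', hk'⟩ := Nat.exists_eq_succ_of_ne_zero hk0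
        have hk'ne : (S ^ k') u ≠ 0 := Nat.find_min hu (by omega)
        intro hbot
        apply hk'ne
        have hmem : (S ^ k') u ∈ U' := by
          refine ⟨hinvS k' u huU, LinearMap.mem_ker.mpr ?_⟩
          rw [← Module.End.mul_apply, ← pow_succ', ← Nat.succ_eq_add_one, ← hk']
          exact hk
        rw [hbot] at hmem
        exact (Submodule.mem_bot ℂ).mp hmem
      · intro j u hu
        refine ⟨hUinv j u hu.1, LinearMap.mem_ker.mpr ?_⟩
        have hu2 : S u = 0 := LinearMap.mem_ker.mp hu.2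
        rw [hSapp] at hu2 ⊢
        have hc := (hcomm i j).eq
        have : T i (T j u) = T j (T i u) := by
          rw [← Module.End.mul_apply, hc, Module.End.mul_apply]
        rw [this, ← map_smul, ← map_sub, hu2, map_zero]
    have heq : U' = U := by
      by_contra hne
      exact hmin U' hU'mem (lt_of_le_of_ne inf_le_left hne)
    intro u hu
    have hu' : u ∈ U' := heq ▸ hu
    have h2 : S u = 0 := LinearMap.mem_ker.mp hu'.2
    rw [hSapp] at h2
    exact sub_eq_zero.mp h2
  obtain ⟨v, hvU, hv0⟩ := Submodule.exists_mem_ne_zero_of_ne_bot hUne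
  exact ⟨v, hv0, fun i => key i v hvU⟩


theorem isIntegral_eigenvalue {V : Type} [AddCommGroup V] [Module ℂ V] [FiniteDimensional ℂ V]
    (T : Module.End ℂ V) (L : Submodule ℤ V) (hLfg : L.FG)
    (hLspan : Submodule.span ℂ (L : Set V) = ⊤) (hTL : ∀ x ∈ L, T x ∈ L)
    (μ : ℂ) (hμ : T.HasEigenvalue μ) : IsIntegral ℤ μ := by
  obtain ⟨v, hv⟩ := hμ.exists_hasEigenvector
  let S : Module.End ℂ V := T - μ • 1
  have hSapp : ∀ x, S x = T x - μ • x := fun x => by simp [S]
  have hSv : S v = 0 := by rw [hSapp, hv.apply_eq_smul, sub_self]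
  have hninj : ¬ Function.Injective S := fun hinj => hv.2 (hinj (by rw [hSv, map_zero]))
  have hnsurj : ¬ Function.Surjective S :=
    fun hs => hninj (LinearMap.injective_iff_surjective.mpr hs)
  have hlt : LinearMap.range S < ⊤ :=
    lt_top_iff_ne_top.mpr (fun h => hnsurj (LinearMap.range_eq_top.mp h))
  obtain ⟨lam, hlam0, hle⟩ := Submodule.exists_le_ker_of_lt_top _ hlt
  have hlamT : ∀ x, lam (T x) = μ * lam x := by
    intro x
    have h0 : lam (S x) = 0 := LinearMap.mem_ker.mp (hle (LinearMap.mem_range_self S x))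
    rw [hSapp, map_sub, map_smul, smul_eq_mul] at h0
    exact sub_eq_zero.mp h0
  let Nn : Submodule ℤ ℂ := L.map (lam.restrictScalars ℤ)
  have hNfg : Nn.FG := hLfg.map _
  have hNne : Nn ≠ ⊥ := by
    intro hbot
    apply hlam0
    apply LinearMap.ext_on hLspan
    intro x hx
    have hmem : lam x ∈ Nn := Submodule.mem_map_of_mem (f := lam.restrictScalars ℤ) hx
    rw [hbot] at hmem
    simpa using hmem
  refine isIntegral_of_smul_mem_submodule Nn hNne hNfg μ ?_
  rintro _ ⟨x, hx, rfl⟩
  refine ⟨T x, hTL x hx, ?_⟩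
  simp [hlamT]

end Fermat.Agent.S49
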