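import Mathlib

set_option autoImplicit false

namespace Fermat.Agent.S49

open Module

/-- Abstract Deligne–Serre lemma: a commutative ring acting on a finite-dimensional space over
an algebraically closed field, with a prime ideal containing the kernel of the action, has a
common eigenvector whose eigencharacter has kernel inside the prime ideal. -/
theorem exists_eigen_of_prime {K H V : Type*} [Field K] [IsAlgClosed K] [CommRing H]
    [AddCommGroup V] [Module K V] [FiniteDimensional K V]
    (ρ : H →+* Module.End K V) (I : Ideal H) [hI : I.IsPrime]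
    (hker : RingHom.ker ρ ≤ I) :
    ∃ (ψ : H →+* K) (v : V), v ≠ 0 ∧ (∀ h, ρ h v = ψ h • v) ∧ RingHom.ker ψ ≤ I := by
  classical
  let 𝒮 : Set (Submodule K V) :=
    {W | (∀ h, ∀ w ∈ W, ρ h w ∈ W) ∧ ∀ h, (∀ w ∈ W, ρ h w = 0) → h ∈ I}
  have htop : (⊤ : Submodule K V) ∈ 𝒮 := by
    refine ⟨fun _ _ _ => Submodule.mem_top, fun h hh => hker ?_⟩
    rw [RingHom.mem_ker]
    ext w
    simpa using hh w Submodule.mem_top
  obtain ⟨W, hW𝒮, hmin⟩ := (wellFounded_lt (α := Submodule K V)).has_min 𝒮 ⟨⊤, htop⟩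
  obtain ⟨hWst, hWann⟩ := hW𝒮
  have hWbot : W ≠ ⊥ := by
    rintro rfl
    apply hI.ne_top
    rw [Ideal.eq_top_iff_one]
    apply hWann
    intro w hw
    rw [Submodule.mem_bot] at hw
    simp [hw]
  have hcomm : ∀ g h : H, ρ g ∘ₗ ρ h = ρ h ∘ₗ ρ g := by
    intro g h
    have : ρ g * ρ h = ρ h * ρ g := by rw [← map_mul, ← map_mul, mul_comm]
    exact this
  have key : ∀ h : H, ∃ μ : K, ∀ w ∈ W, ρ h w = μ • w := by
    intro h
    have : Nontrivial W := Submodule.nontrivial_iff_ne_bot.mpr hWbot
    obtain ⟨μ, hμ⟩ := Module.End.exists_eigenvalue ((ρ h).restrict (hWst h))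
    obtain ⟨w0, hw0⟩ := hμ.exists_hasEigenvector
    refine ⟨μ, ?_⟩
    set B : Module.End K V := ρ h - μ • LinearMap.id with hB
    have hBcomm : ∀ g : H, ∀ x : V, ρ g (B x) = B (ρ g x) := by
      intro g x
      have h1 : ρ g (ρ h x) = ρ h (ρ g x) := by
        have := congrArg (fun f => f x) (hcomm g h)
        simpa using this
      simp [hB, h1]
    have hBW : ∀ w ∈ W, B w ∈ W := by
      intro w hw
      simp only [hB, LinearMap.sub_apply, LinearMap.smul_apply, LinearMap.id_coe, id_eq]
      exact W.sub_mem (hWst h w hw) (W.smul_mem μ hw)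
    have hBw0 : B (w0 : V) = 0 := by
      have h1 := hw0.apply_eq_smul
      have h2 : ρ h (w0 : V) = μ • (w0 : V) := by
        have := congrArg Subtype.val h1
        simpa using this
      simp [hB, h2]
    have hle : W.map B ≤ W := by
      rintro _ ⟨w, hw, rfl⟩
      exact hBW w hw
    have hne : W.map B ≠ W := by
      intro heq
      have hsurj : Function.Surjective (B.restrict hBW) := by
        rintro ⟨y, hy⟩
        rw [← heq] at hy
        obtain ⟨w, hw, rfl⟩ := hy
        exact ⟨⟨w, hw⟩, rfl⟩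
      have hinj : Function.Injective (B.restrict hBW) :=
        LinearMap.injective_iff_surjective.mpr hsurj
      have h0 : B.restrict hBW w0 = B.restrict hBW 0 := by
        apply Subtype.ext
        simp [hBw0]
      exact hw0.2 (hinj h0)
    have hlt : W.map B < W := lt_of_le_of_ne hle hne
    have hnot : W.map B ∉ 𝒮 := fun hmem => hmin _ hmem hlt
    have hst' : ∀ g, ∀ w ∈ W.map B, ρ g w ∈ W.map B := by
      rintro g _ ⟨w, hw, rfl⟩
      exact ⟨ρ g w, hWst g w hw, (hBcomm g w).symm⟩
    have hex : ∃ g : H, (∀ w ∈ W.map B, ρ g w = 0) ∧ g ∉ I := by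
      by_contra hcon
      refine hnot ⟨hst', fun g hg => ?_⟩
      by_contra hgI
      exact hcon ⟨g, hg, hgI⟩
    obtain ⟨g, hg0, hgI⟩ := hex
    have hmem'' : W.map (ρ g) ∈ 𝒮 := by
      refine ⟨?_, ?_⟩
      · rintro x _ ⟨w, hw, rfl⟩
        refine ⟨ρ x w, hWst x w hw, ?_⟩
        have := congrArg (fun f => f w) (hcomm g x)
        simpa using this
      · intro x hx
        have hxg : x * g ∈ I := by
          apply hWann
          intro w hw
          have := hx (ρ g w) ⟨w, hw, rfl⟩
          simpa [map_mul] using this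
        exact (hI.mem_or_mem hxg).resolve_right hgI
    have hle'' : W.map (ρ g) ≤ W := by
      rintro _ ⟨w, hw, rfl⟩
      exact hWst g w hw
    have heq'' : W.map (ρ g) = W := by
      by_contra hne''
      exact hmin _ hmem'' (lt_of_le_of_ne hle'' hne'')
    intro w hw
    rw [← heq''] at hw
    obtain ⟨u, hu, rfl⟩ := hw
    have h1 : B (ρ g u) = 0 := by
      rw [← hBcomm g u]
      exact hg0 _ ⟨u, hu, rfl⟩
    have h2 : ρ h (ρ g u) - μ • ρ g u = 0 := by simpa [hB] using h1
    exact sub_eq_zero.mp h2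
  choose ψ hψ using key
  obtain ⟨v, hvW, hv0⟩ := Submodule.exists_mem_ne_zero_of_ne_bot hWbot
  have hinj : ∀ a b : K, a • v = b • v → a = b := by
    intro a b hab
    by_contra hne
    have : (a - b) • v = 0 := by rw [sub_smul, hab, sub_self]
    rcases smul_eq_zero.mp this with h | h
    · exact hne (sub_eq_zero.mp h)
    · exact hv0 h
  let ψ' : H →+* K :=
    { toFun := ψ
      map_one' := by
        apply hinj
        rw [← hψ 1 v hvW]
        simp
      map_mul' := by
        intro a b
        apply hinj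
        rw [← hψ (a * b) v hvW, map_mul, Module.End.mul_apply, hψ b v hvW, map_smul,
          hψ a v hvW, smul_smul, mul_comm]
      map_zero' := by
        apply hinj
        rw [← hψ 0 v hvW]
        simp
      map_add' := by
        intro a b
        apply hinj
        rw [← hψ (a + b) v hvW, map_add, LinearMap.add_apply, hψ a v hvW, hψ b v hvW, add_smul] }
  refine ⟨ψ', v, hv0, fun h => hψ h v hvW, ?_⟩
  intro h hh
  apply hWann
  intro w hw
  have : ψ h = 0 := hh
  rw [hψ h w hw, this, zero_smul]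

/-- Lying-over wrapper: an integral character `ψ : H → ℂ` and a proper ideal `I ⊇ ker ψ`
give a maximal ideal of the ring of algebraic integers containing `ψ(I)`. -/
theorem exists_maximal_over {H : Type*} [CommRing H] (ψ : H →+* ℂ)
    (hint : ∀ h, IsIntegral ℤ (ψ h)) (I : Ideal H) (hI : I ≠ ⊤) (hker : RingHom.ker ψ ≤ I) :
    ∃ 𝔪' : Ideal (integralClosure ℤ ℂ), 𝔪'.IsMaximal ∧
      ∀ h ∈ I, ∀ c : integralClosure ℤ ℂ, (c : ℂ) = ψ h → c ∈ 𝔪' := by
  obtain ⟨P, hPmax, hIP⟩ := Ideal.exists_le_maximal I hI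
  let ψ' : H →+* integralClosure ℤ ℂ :=
    ψ.codRestrict (integralClosure ℤ ℂ).toSubring (fun h => hint h)
  let _ : Algebra H (integralClosure ℤ ℂ) := ψ'.toAlgebra
  have hψ' : ∀ h, ((ψ' h : integralClosure ℤ ℂ) : ℂ) = ψ h := fun h => rfl
  have : Algebra.IsIntegral H (integralClosure ℤ ℂ) := by
    refine ⟨fun z => ?_⟩
    have hz : IsIntegral ℤ z := Algebra.IsIntegral.isIntegral z
    exact hz.tower_top
  have hkerP : RingHom.ker (algebraMap H (integralClosure ℤ ℂ)) ≤ P := by
    intro h hh
    apply hIP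
    apply hker
    rw [RingHom.mem_ker] at hh ⊢
    have : ψ' h = 0 := hh
    rw [← hψ' h, this]
    rfl
  obtain ⟨Q, hQmax, hQ⟩ := Ideal.exists_ideal_over_maximal_of_isIntegral P hkerP
  refine ⟨Q, hQmax, fun h hh c hc => ?_⟩
  have h1 : h ∈ Q.comap (algebraMap H (integralClosure ℤ ℂ)) := by
    rw [hQ]; exact hIP hh
  have h2 : c = ψ' h := Subtype.ext (by rw [hc, hψ' h])
  rw [h2]
  exact h1

end Fermat.Agent.S49
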