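import Mathlib
import Fermat.Agent.S49.Eigen

set_option autoImplicit false

namespace Fermat.Agent.S49

open Module

theorem lifting_core
    {V : Type} [AddCommGroup V] [Module ℂ V] [FiniteDimensional ℂ V]
    {B : Type} [CommRing B] [Algebra (integralClosure ℤ ℂ) B]
    (φ : B →ₐ[integralClosure ℤ ℂ] Module.End ℂ V) (hφ : Function.Injective φ)
    {ι : Type} (t : ι → B)
    (hint : ∀ i (μ : ℂ), (φ (t i)).HasEigenvalue μ → IsIntegral ℤ μ)
    (a : ι → integralClosure ℤ ℂ)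
    (M : Ideal B) (hMmax : M.IsMaximal) (h3 : (3 : B) ∈ M)
    (hM : ∀ i, t i - algebraMap (integralClosure ℤ ℂ) B (a i) ∈ M) :
    ∃ (χ : ι → integralClosure ℤ ℂ) (v : V), v ≠ 0 ∧ (∀ i, φ (t i) v = (χ i : ℂ) • v) ∧
      ∃ 𝔪 : Ideal (integralClosure ℤ ℂ), 𝔪.IsMaximal ∧ (3 : integralClosure ℤ ℂ) ∈ 𝔪 ∧
        ∀ i, χ i - a i ∈ 𝔪 := by
  classical
  set T : ι → Module.End ℂ V := fun i => φ (t i) with hT
  have hcomm : ∀ i j, Commute (T i) (T j) := fun i j => by
    show φ (t i) * φ (t j) = φ (t j) * φ (t i)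
    rw [← map_mul, ← map_mul, mul_comm]
  let W : (ι → ℂ) → Submodule ℂ V := fun χ => ⨅ i, (T i).maxGenEigenspace (χ i)
  have hsup : ⨆ χ, W χ = ⊤ :=
    Module.End.iSup_iInf_maxGenEigenspace_eq_top_of_iSup_maxGenEigenspace_eq_top_of_commute T
      (fun i j _ => hcomm i j) (fun i => Module.End.iSup_maxGenEigenspace_eq_top (T i))
  have hindep : iSupIndep W :=
    Module.End.independent_iInf_maxGenEigenspace_of_forall_mapsTo T
      (fun i j μ => Module.End.mapsTo_maxGenEigenspace_of_comm (hcomm j i) μ)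
  have hfin : {χ | W χ ≠ ⊥}.Finite := WellFoundedGT.finite_ne_bot_of_iSupIndep hindep
  have hkey : ∃ χ, W χ ≠ ⊥ ∧ ∀ b : B, (∃ m : ℕ, ∀ v ∈ W χ, (φ b ^ m) v = 0) → b ∈ M := by
    by_contra hcon
    push Not at hcon
    choose! b hb using hcon
    have hb1 : ∀ χ, W χ ≠ ⊥ → ∃ m : ℕ, ∀ v ∈ W χ, (φ (b χ) ^ m) v = 0 := fun χ h => (hb χ h).1
    choose! m hm using hb1
    let d : B := ∏ χ ∈ hfin.toFinset, b χ ^ m χ
    have hdM : d ∉ M := by
      intro hd
      rw [Ideal.IsPrime.prod_mem_iff] at hd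
      obtain ⟨χ, hχ, hmem⟩ := hd
      have := hMmax.isPrime.mem_of_pow_mem _ hmem
      exact (hb χ (hfin.mem_toFinset.mp hχ)).2 this
    have hd0 : d = 0 := by
      apply hφ
      rw [map_zero]
      ext v
      have hv : v ∈ ⨆ χ, W χ := hsup ▸ Submodule.mem_top
      refine Submodule.iSup_induction W (motive := fun v => φ d v = 0) hv ?_ ?_ ?_
      · intro χ w hw
        by_cases hχ : W χ = ⊥
        · rw [hχ] at hw; rw [(Submodule.mem_bot ℂ).mp hw, map_zero]
        · have hχ' : χ ∈ hfin.toFinset := hfin.mem_toFinset.mpr hχ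
          have : d = (∏ χ' ∈ hfin.toFinset.erase χ, b χ' ^ m χ') * b χ ^ m χ :=
            (Finset.prod_erase_mul _ _ hχ').symm
          rw [this, map_mul, Module.End.mul_apply, map_pow, hm χ hχ w hw, map_zero]
      · simp
      · intro x y hx hy; rw [map_add, hx, hy, add_zero]
    exact hdM (hd0 ▸ M.zero_mem)
  obtain ⟨χ, hχ, hK⟩ := hkey
  obtain ⟨v, hv0, hv⟩ := exists_common_eigenvector T hcomm χ hχ
  have hev : ∀ i, (T i).HasEigenvalue (χ i) := fun i =>
    Module.End.hasEigenvalue_of_hasEigenvector ⟨Module.End.mem_eigenspace_iff.mpr (hv i), hv0⟩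
  have hχint : ∀ i, IsIntegral ℤ (χ i) := fun i => hint i _ (hev i)
  let c : ι → integralClosure ℤ ℂ := fun i => ⟨χ i, hχint i⟩
  have hcM : ∀ i, t i - algebraMap _ B (c i) ∈ M := by
    intro i
    apply hK
    refine ⟨Module.finrank ℂ V, fun w hw => ?_⟩
    have hw' : w ∈ (T i).maxGenEigenspace (χ i) := (Submodule.mem_iInf _).mp hw i
    rw [Module.End.maxGenEigenspace_eq_genEigenspace_finrank,
      Module.End.mem_genEigenspace_nat] at hw'
    have : φ (t i - algebraMap _ B (c i)) = T i - χ i • 1 := by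
      rw [map_sub, AlgHom.commutes]
      rfl
    rw [this]; exact LinearMap.mem_ker.mp hw'
  let 𝔪₀ : Ideal (integralClosure ℤ ℂ) := M.comap (algebraMap _ B)
  have h𝔪₀ : 𝔪₀ ≠ ⊤ := Ideal.comap_ne_top _ hMmax.ne_top
  obtain ⟨𝔪, h𝔪max, h𝔪le⟩ := Ideal.exists_le_maximal 𝔪₀ h𝔪₀
  refine ⟨c, v, hv0, fun i => hv i, 𝔪, h𝔪max, h𝔪le ?_, fun i => h𝔪le ?_⟩
  · show algebraMap _ B 3 ∈ M
    rw [map_ofNat]; exact h3
  · show algebraMap _ B (c i - a i) ∈ M
    rw [map_sub]
    have := M.sub_mem (hM i) (hcM i)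
    convert this using 1; ring


open scoped IsMulCommutative in
theorem lifting_lemma
    {V : Type} [AddCommGroup V] [Module ℂ V] [FiniteDimensional ℂ V]
    {ι : Type} (T : ι → Module.End ℂ V)
    (hcomm : ∀ i j, Commute (T i) (T j))
    (hint : ∀ i (μ : ℂ), (T i).HasEigenvalue μ → IsIntegral ℤ μ)
    (a : ι → integralClosure ℤ ℂ)
    (Q : AddSubgroup V)
    (hQT : ∀ i, ∀ g ∈ Q, T i g ∈ Q)
    (hQc : ∀ c : integralClosure ℤ ℂ, ∀ g ∈ Q, (c : ℂ) • g ∈ Q)
    (f : V) (hf3 : (3 : ℂ) • f ∈ Q) (hfT : ∀ i, T i f - (a i : ℂ) • f ∈ Q) (hfQ : f ∉ Q) :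
    ∃ (χ : ι → integralClosure ℤ ℂ) (v : V), v ≠ 0 ∧ (∀ i, T i v = (χ i : ℂ) • v) ∧
      ∃ 𝔪 : Ideal (integralClosure ℤ ℂ), 𝔪.IsMaximal ∧ (3 : integralClosure ℤ ℂ) ∈ 𝔪 ∧
        ∀ i, χ i - a i ∈ 𝔪 := by
  classical
  let B : Subalgebra (integralClosure ℤ ℂ) (Module.End ℂ V) := Algebra.adjoin _ (Set.range T)
  have hBc : IsMulCommutative B := Algebra.isMulCommutative_adjoin _ (by
    rintro _ ⟨i, rfl⟩ _ ⟨j, rfl⟩; exact (hcomm i j).eq)
  let t : ι → B := fun i => ⟨T i, Algebra.subset_adjoin (Set.mem_range_self i)⟩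
  have hBQ : ∀ b : B, ∀ g ∈ Q, (b : Module.End ℂ V) g ∈ Q := by
    rintro ⟨b, hb⟩
    induction hb using Algebra.adjoin_induction with
    | mem x hx => obtain ⟨i, rfl⟩ := hx; exact hQT i
    | algebraMap r => intro g hg; exact hQc r g hg
    | add x y _ _ hx hy => intro g hg; exact Q.add_mem (hx g hg) (hy g hg)
    | mul x y _ _ hx hy => intro g hg; exact hx _ (hy g hg)
  let J : Ideal B := Ideal.span (insert (3 : B) (Set.range fun i => t i - algebraMap _ B (a i)))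
  have hJf : ∀ x ∈ J, (x : Module.End ℂ V) f ∈ Q := by
    intro x hx
    induction hx using Submodule.span_induction with
    | mem x hx =>
      rcases hx with rfl | ⟨i, rfl⟩
      · have h1 : ((3 : B) : Module.End ℂ V) = 3 := rfl
        have : ((3 : B) : Module.End ℂ V) f = (3 : ℂ) • f := by
          rw [h1, Module.End.ofNat_apply]
          exact (ofNat_smul_eq_nsmul ℂ 3 f).symm
        rw [this]; exact hf3
      · have : ((t i - algebraMap _ B (a i) : B) : Module.End ℂ V) f = T i f - (a i : ℂ) • f := by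
          rfl
        rw [this]; exact hfT i
    | zero => simp
    | add x y _ _ hx hy =>
      have : ((x + y : B) : Module.End ℂ V) f = (x : Module.End ℂ V) f + (y : Module.End ℂ V) f := rfl
      rw [this]; exact Q.add_mem hx hy
    | smul b x _ hx =>
      have : ((b • x : B) : Module.End ℂ V) f = (b : Module.End ℂ V) ((x : Module.End ℂ V) f) := rfl
      rw [this]; exact hBQ b _ hx
  have hJ : J ≠ ⊤ := fun h => hfQ (by
    have := hJf 1 (h ▸ Submodule.mem_top)
    simpa using this)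
  obtain ⟨M, hMmax, hJM⟩ := Ideal.exists_le_maximal J hJ
  exact lifting_core (B.val) Subtype.val_injective t hint a M hMmax
    (hJM (Ideal.subset_span (Set.mem_insert _ _)))
    (fun i => hJM (Ideal.subset_span (Set.mem_insert_of_mem _ ⟨i, rfl⟩)))

end Fermat.Agent.S49
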