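import Fermat.Agent.S49.Mod3
import Fermat.Prelude.Thm_CuspForm_mem_intLattice_of_mem_heckeAlgebra

set_option autoImplicit false

namespace Fermat.Agent.S49

open CuspForm EisensteinWeightOne CongruenceSubgroup ModularFormClass

theorem main {N : ℕ} [NeZero N] (h : CuspForm.HasIntegralBasis N) {a : ℕ → ℤ}
    (heig : FormalHecke.IsEigensystem
      (fun ℓ => if ℓ ∣ N then 0 else ((chiNegThree ℓ : ℤ) : ℤ)) a)
    (hreal : CuspForm.IsLatticeRealized N a) :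
    ∃ (f : CuspForm (Gamma0 N) 2) (_ : f.IsNormalizedEigenform)
      (𝔪' : Ideal (integralClosure ℤ ℂ)), 𝔪'.IsMaximal ∧
      ((3 : ℕ) : integralClosure ℤ ℂ) ∈ 𝔪' ∧
      ∀ (ℓ : ℕ) (_ : ℓ.Prime) (_ : ¬ ℓ ∣ N),
        ∃ c : integralClosure ℤ ℂ, (c : ℂ) = ModularFormClass.qCoeff f ℓ ∧
          c - (a ℓ : integralClosure ℤ ℂ) ∈ 𝔪' := by
  classical
  obtain ⟨f, hfint, af, haf, hdiv⟩ := hreal
  obtain ⟨ha1, harel⟩ := heig
  have hsub : qIntegralSet N ⊆ (CuspForm.intLattice N 2 : Set (CuspForm (Gamma0 N) 2)) := by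
    intro g hg
    apply Submodule.subset_span
    intro n
    obtain ⟨m, hm⟩ := Subring.mem_bot.mp (hg n)
    exact ⟨m, hm.symm⟩
  have hLspan : Submodule.span ℂ (CuspForm.intLattice N 2 : Set (CuspForm (Gamma0 N) 2)) = ⊤ :=
    top_unique (h ▸ Submodule.span_mono hsub)
  have hLfg := CuspForm.intLattice_fg N 2
  have : FiniteDimensional ℂ (CuspForm (Gamma0 N) 2) := by
    obtain ⟨S₀, hS₀⟩ := hLfg
    refine Module.finite_def.mpr ⟨S₀, ?_⟩
    rw [← Submodule.span_span_of_tower ℤ ℂ, hS₀]; exact hLspan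
  let T : {p : ℕ // p.Prime} → Module.End ℂ (CuspForm (Gamma0 N) 2) := fun ℓ =>
    if hd : ℓ.1 ∣ N then CuspForm.heckeULin 2 hd else CuspForm.heckeTLin 2 ℓ.2 hd
  have hTgen : ∀ ℓ, T ℓ ∈ CuspForm.heckeGenerators N 2 ∅ := by
    intro ℓ
    by_cases hd : ℓ.1 ∣ N
    · simp only [T, dif_pos hd]
      exact CuspForm.heckeULin_mem_heckeGenerators ℓ.2 hd (Set.notMem_empty _)
    · simp only [T, dif_neg hd]
      exact CuspForm.heckeTLin_mem_heckeGenerators ℓ.2 hd (Set.notMem_empty _)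
  have hcomm : ∀ i j, Commute (T i) (T j) := fun i j =>
    CuspForm.commute_of_mem_heckeGenerators (hTgen i) (hTgen j)
  have hTq : ∀ (ℓ : {p : ℕ // p.Prime}) (g : CuspForm (Gamma0 N) 2) (n : ℕ), qCoeff ⇑(T ℓ g) n =
      qCoeff ⇑g (n * ℓ.1) + if ℓ.1 ∣ N then 0 else
        (if ℓ.1 ∣ n then (ℓ.1 : ℂ) * qCoeff ⇑g (n / ℓ.1) else 0) := by
    intro ℓ g n
    by_cases hd : ℓ.1 ∣ N
    · simp only [T, dif_pos hd, if_pos hd, add_zero]; exact qc_heckeU ℓ.2 hd g n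
    · simp only [T, dif_neg hd, if_neg hd]; rw [qc_heckeT ℓ.2 hd g n]; norm_num
  have hTL : ∀ ℓ, ∀ x ∈ CuspForm.intLattice N 2, T ℓ x ∈ CuspForm.intLattice N 2 := by
    intro ℓ x hx
    exact CuspForm.mem_intLattice_of_mem_heckeAlgebra (S := ∅) (by norm_num)
      (Algebra.subset_adjoin (hTgen ℓ)) hx
  have hint : ∀ i (μ : ℂ), (T i).HasEigenvalue μ → IsIntegral ℤ μ := fun i μ hμ =>
    isIntegral_eigenvalue (T i) _ hLfg hLspan (hTL i) μ hμ
  have hQT : ∀ i, ∀ g ∈ Qsub N, T i g ∈ Qsub N := by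
    intro ℓ g hg n
    rw [hTq]
    obtain ⟨z1, hz1⟩ := hg (n * ℓ.1)
    obtain ⟨z2, hz2⟩ := hg (n / ℓ.1)
    by_cases hd : ℓ.1 ∣ N
    · exact ⟨z1, by rw [if_pos hd, add_zero, hz1]⟩
    · by_cases hn : ℓ.1 ∣ n
      · refine ⟨z1 + (ℓ.1 : integralClosure ℤ ℂ) * z2, ?_⟩
        rw [if_neg hd, if_pos hn, hz1, hz2]; push_cast; ring
      · exact ⟨z1, by rw [if_neg hd, if_neg hn, add_zero, hz1]⟩
  have hQc : ∀ c : integralClosure ℤ ℂ, ∀ g ∈ Qsub N, (c : ℂ) • g ∈ Qsub N := by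
    intro c g hg n
    obtain ⟨z, hz⟩ := hg n
    exact ⟨c * z, by rw [qc_smul, hz]; push_cast; ring⟩
  have hafmod : ∀ n, ((af n : ℤ) : ZMod 3) = ((a n : ℤ) : ZMod 3) := by
    intro n
    have h1 := (ZMod.intCast_zmod_eq_zero_iff_dvd (af n - (bridgeProduct a).coeff n) 3).mpr
      (hdiv n)
    push_cast at h1
    rw [sub_eq_zero] at h1
    rw [h1, bridge_zmod]
  have hf3 : (3 : ℂ) • f ∈ Qsub N := by
    intro n
    exact ⟨(af n : integralClosure ℤ ℂ), by rw [qc_smul, ← haf n]; push_cast; ring⟩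
  have hfT : ∀ i : {p : ℕ // p.Prime}, T i f - (((a i.1 : ℤ) : integralClosure ℤ ℂ) : ℂ) • f ∈ Qsub N := by
    intro ℓ n
    have hD : (3 : ℤ) ∣ af (n * ℓ.1) + (if ℓ.1 ∣ N then 0 else
        (if ℓ.1 ∣ n then (ℓ.1 : ℤ) * af (n / ℓ.1) else 0)) - a ℓ.1 * af n := by
      refine (ZMod.intCast_zmod_eq_zero_iff_dvd _ 3).mp ?_
      have hrel := congrArg (Int.cast : ℤ → ZMod 3) (harel ℓ.1 ℓ.2 n)
      push_cast at hrel
      rw [mul_comm n ℓ.1]
      by_cases hd : ℓ.1 ∣ N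
      · simp only [if_pos hd] at hrel ⊢
        push_cast
        simp only [hafmod]
        linear_combination hrel
      · by_cases hn : ℓ.1 ∣ n
        · simp only [if_neg hd, if_pos hn] at hrel ⊢
          push_cast
          simp only [hafmod]
          rw [chiNegThree_zmod] at hrel
          linear_combination hrel
        · simp only [if_neg hd, if_neg hn] at hrel ⊢
          push_cast
          simp only [hafmod]
          linear_combination hrel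
    obtain ⟨w, hw⟩ := hD
    refine ⟨(w : integralClosure ℤ ℂ), ?_⟩
    rw [qc_sub, qc_smul, hTq, ← haf, ← haf, ← haf]
    have hw' := congrArg (Int.cast : ℤ → ℂ) hw
    push_cast at hw'
    push_cast
    split_ifs at hw' ⊢ <;> linear_combination hw'
  have hfQ : f ∉ Qsub N := by
    intro hf
    obtain ⟨z, hz⟩ := hf 1
    rw [← haf 1] at hz
    have hzint : IsIntegral ℤ (z : ℂ) := z.2
    have hzq : (z : ℂ) = algebraMap ℚ ℂ ((af 1 : ℚ) / 3) := by
      simp only [map_div₀, map_intCast, map_ofNat]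
      rw [hz]; ring
    rw [hzq] at hzint
    have hq : IsIntegral ℤ ((af 1 : ℚ) / 3) :=
      (isIntegral_algebraMap_iff (algebraMap ℚ ℂ).injective).mp hzint
    obtain ⟨m, hm⟩ := IsIntegrallyClosed.isIntegral_iff.mp hq
    have h3 : af 1 = 3 * m := by
      have hm' : (m : ℚ) = (af 1 : ℚ) / 3 := hm
      have : (af 1 : ℚ) = 3 * m := by rw [hm']; ring
      exact_mod_cast this
    have h1 := hafmod 1
    rw [ha1, h3] at h1
    push_cast at h1
    have h30 : (3 : ZMod 3) = 0 := by decide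
    rw [h30, zero_mul] at h1
    exact absurd h1 (by decide)
  obtain ⟨χ, v, hv0, hv, 𝔪, h𝔪, h3𝔪, hχ⟩ := lifting_lemma T hcomm hint
    (fun ℓ => ((a ℓ.1 : ℤ) : integralClosure ℤ ℂ)) (Qsub N) hQT hQc f hf3 hfT hfQ
  have hrelv : ∀ (ℓ : {p : ℕ // p.Prime}) (n : ℕ), qCoeff ⇑v (n * ℓ.1) + (if ℓ.1 ∣ N then 0 else
      (if ℓ.1 ∣ n then (ℓ.1 : ℂ) * qCoeff ⇑v (n / ℓ.1) else 0)) = χ ℓ * qCoeff ⇑v n := by
    intro ℓ n
    have h1 : qCoeff ⇑(T ℓ v) n = qCoeff ⇑((χ ℓ : ℂ) • v) n := by rw [hv ℓ]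
    rw [hTq, qc_smul] at h1
    exact h1
  have hb1 : qCoeff ⇑v 1 ≠ 0 := by
    intro hb1
    apply hv0
    apply qc_ext
    intro n
    rw [qc_zero]
    induction n using Nat.strong_induction_on with
    | _ n ih =>
      rcases Nat.lt_or_ge n 2 with hn | hn
      · interval_cases n
        · exact qc_cusp v
        · exact hb1
      · obtain ⟨p, hp, m, rfl⟩ : ∃ p, p.Prime ∧ ∃ m, n = m * p := by
          obtain ⟨p, hp, hpn⟩ := Nat.exists_prime_and_dvd (show n ≠ 1 by omega)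
          obtain ⟨m, rfl⟩ := hpn
          exact ⟨p, hp, m, mul_comm p m⟩
        have hm0 : m ≠ 0 := by rintro rfl; omega
        have hm : m < m * p := by
          have := hp.two_le
          nlinarith [Nat.pos_of_ne_zero hm0]
        have hmp : m / p < m * p := lt_of_le_of_lt (Nat.div_le_self m p) hm
        have h1 := hrelv ⟨p, hp⟩ m
        rw [ih m hm, ih (m / p) hmp] at h1
        simpa using h1
  let g : CuspForm (Gamma0 N) 2 := (qCoeff ⇑v 1)⁻¹ • v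
  have hgq : ∀ n, qCoeff ⇑g n = (qCoeff ⇑v 1)⁻¹ * qCoeff ⇑v n := fun n => qc_smul _ _ _
  have hg1 : qCoeff ⇑g 1 = 1 := by rw [hgq]; exact inv_mul_cancel₀ hb1
  have hrelg : ∀ (ℓ : {p : ℕ // p.Prime}) (n : ℕ), qCoeff ⇑g (n * ℓ.1) + (if ℓ.1 ∣ N then 0 else
      (if ℓ.1 ∣ n then (ℓ.1 : ℂ) * qCoeff ⇑g (n / ℓ.1) else 0)) = χ ℓ * qCoeff ⇑g n := by
    intro ℓ n
    rw [hgq, hgq, hgq]
    have h1 := hrelv ℓ n
    split_ifs at h1 ⊢ <;> linear_combination (qCoeff ⇑v 1)⁻¹ * h1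
  have hχg : ∀ ℓ : {p : ℕ // p.Prime}, (χ ℓ : ℂ) = qCoeff ⇑g ℓ.1 := by
    intro ℓ
    have h1 := hrelg ℓ 1
    rw [one_mul, hg1, mul_one] at h1
    have hnd : ¬ (ℓ.1 ∣ 1) := by
      rw [Nat.dvd_one]; exact ℓ.2.one_lt.ne'
    rw [if_neg hnd] at h1
    simp only [ite_self, add_zero] at h1
    exact h1.symm
  have hsys : FormalHecke.IsEigensystem (fun ℓ : ℕ => if ℓ ∣ N then (0 : ℂ) else (ℓ : ℂ))
      (fun n => qCoeff ⇑g n) := by
    refine ⟨hg1, fun ℓ hℓ n => ?_⟩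
    have h1 := hrelg ⟨ℓ, hℓ⟩ n
    have h2 := hχg ⟨ℓ, hℓ⟩
    simp only at h1 h2 ⊢
    rw [mul_comm ℓ n, ← h2]
    split_ifs at h1 ⊢ <;> linear_combination h1
  have hnorm : g.IsNormalizedEigenform :=
    { qCoeff_one := hg1
      qCoeff_mul_of_coprime := fun m n hmn => eigensystem_mul_of_coprime _ _ hsys m n hmn
      qCoeff_prime_pow_of_not_dvd := fun p r hp hpN => by
        have h1 := hsys.2 p hp (p ^ (r + 1))
        simp only [if_neg hpN] at h1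
        rw [if_pos (dvd_pow_self p (Nat.succ_ne_zero r))] at h1
        rw [show p * p ^ (r + 1) = p ^ (r + 2) by ring,
          show p ^ (r + 1) / p = p ^ r by rw [pow_succ, Nat.mul_div_cancel _ hp.pos]] at h1
        linear_combination h1
      qCoeff_prime_pow_of_dvd := fun p r hp hpN => by
        have h1 := hsys.2 p hp (p ^ (r + 1))
        simp only [if_pos hpN] at h1
        rw [show p * p ^ (r + 1) = p ^ (r + 2) by ring] at h1
        linear_combination h1 }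
  refine ⟨g, hnorm, 𝔪, h𝔪, by simpa using h3𝔪, fun ℓ hℓ hℓN =>
    ⟨χ ⟨ℓ, hℓ⟩, hχg ⟨ℓ, hℓ⟩, hχ ⟨ℓ, hℓ⟩⟩⟩

end Fermat.Agent.S49
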