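import Fermat.Agent.S49.Forms
import Fermat.Agent.S49.Lifting

set_option autoImplicit false

namespace Fermat.Agent.S49

open CuspForm EisensteinWeightOne CongruenceSubgroup ModularFormClass

theorem chiNegThree_zmod (n : ℕ) : ((chiNegThree n : ℤ) : ZMod 3) = (n : ZMod 3) := by
  rw [← ZMod.natCast_mod n 3]
  unfold chiNegThree
  have h : n % 3 < 3 := Nat.mod_lt _ (by norm_num)
  interval_cases n % 3 <;> simp <;> decide

theorem e1Chi3In_zmod : PowerSeries.map (Int.castRingHom (ZMod 3)) (e1Chi3In ℤ) = 1 := by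
  ext j
  simp only [PowerSeries.coeff_map, e1Chi3In, e1Chi3, PowerSeries.coeff_mk, PowerSeries.coeff_one]
  split_ifs with h
  · simp
  · have h6 : (6 : ZMod 3) = 0 := by decide
    simp [h6]

theorem bridge_zmod (a : ℕ → ℤ) (n : ℕ) :
    (((bridgeProduct a).coeff n : ℤ) : ZMod 3) = ((a n : ℤ) : ZMod 3) := by
  have h1 : (((bridgeProduct a).coeff n : ℤ) : ZMod 3)
      = (PowerSeries.map (Int.castRingHom (ZMod 3)) (bridgeProduct a)).coeff n := by simp
  rw [h1, bridgeProduct, map_mul, e1Chi3In_zmod, mul_one]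
  simp

/-- cusp forms whose q-coefficients are all divisible by `3` in the ring of algebraic integers -/
def Qsub (N : ℕ) : AddSubgroup (CuspForm (Gamma0 N) 2) where
  carrier := {g | ∀ n, ∃ z : integralClosure ℤ ℂ, qCoeff ⇑g n = 3 * (z : ℂ)}
  zero_mem' := fun n => ⟨0, by rw [qc_zero]; simp⟩
  add_mem' := by
    intro x y hx hy n
    obtain ⟨z1, hz1⟩ := hx n
    obtain ⟨z2, hz2⟩ := hy n
    exact ⟨z1 + z2, by rw [qc_add, hz1, hz2]; push_cast; ring⟩
  neg_mem' := by
    intro x hx n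
    obtain ⟨z1, hz1⟩ := hx n
    exact ⟨-z1, by rw [qc_neg, hz1]; push_cast; ring⟩

theorem mem_Qsub {N : ℕ} (g : CuspForm (Gamma0 N) 2) :
    g ∈ Qsub N ↔ ∀ n, ∃ z : integralClosure ℤ ℂ, qCoeff ⇑g n = 3 * (z : ℂ) := Iff.rfl

end Fermat.Agent.S49
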