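import Mathlib
import Fermat.Prelude.Def_FormalHecke_Eigensystem

set_option autoImplicit false

namespace Fermat.Agent.S49

open FormalHecke

/-- A formal Hecke eigensystem is multiplicative on coprime arguments. -/
theorem isEigensystem_mul_of_coprime {R : Type*} [CommRing R] {e a : ℕ → R}
    (h : IsEigensystem e a) : ∀ m n : ℕ, m.Coprime n → a (m * n) = a m * a n := by
  obtain ⟨h1, hR⟩ := h
  intro m
  induction m using Nat.strong_induction_on with
  | _ m ih =>
    intro n hmn
    rcases Nat.lt_or_ge m 2 with hm | hm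
    · interval_cases m
      · have hn : n = 1 := by simpa using hmn
        subst hn
        simp [h1]
      · simp [h1]
    · obtain ⟨ℓ, hℓ, hℓm⟩ := Nat.exists_prime_and_dvd (show m ≠ 1 by omega)
      obtain ⟨m', rfl⟩ := hℓm
      have hm'pos : 0 < m' := by
        rcases Nat.eq_zero_or_pos m' with h0 | h0
        · subst h0; omega
        · exact h0
      have hm'lt : m' < ℓ * m' := by
        have := hℓ.two_le
        nlinarith
      have hcop' : m'.Coprime n := Nat.Coprime.coprime_dvd_left (Dvd.intro_left ℓ rfl) hmn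
      have hℓn : ¬ ℓ ∣ n := by
        intro hdvd
        have hℓcop : ℓ.Coprime n := Nat.Coprime.coprime_dvd_left (Dvd.intro m' rfl) hmn
        have := Nat.eq_one_of_dvd_coprimes hℓcop (dvd_refl ℓ) hdvd
        exact hℓ.one_lt.ne' this
      by_cases hℓm' : ℓ ∣ m'
      · obtain ⟨m'', rfl⟩ := hℓm'
        have hm''pos : 0 < m'' := by
          rcases Nat.eq_zero_or_pos m'' with h0 | h0
          · subst h0; simp at hm'pos
          · exact h0
        have hm''lt : m'' < ℓ * (ℓ * m'') := by
          have := hℓ.two_le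
          nlinarith
        have hcop'' : m''.Coprime n :=
          Nat.Coprime.coprime_dvd_left (Dvd.intro_left ℓ rfl) hcop'
        have e1 := hR ℓ hℓ (ℓ * m'')
        have e2 := hR ℓ hℓ (ℓ * m'' * n)
        have hd1 : ℓ ∣ ℓ * m'' := Dvd.intro m'' rfl
        have hd2 : ℓ ∣ ℓ * m'' * n := Dvd.dvd.mul_right hd1 n
        rw [if_pos hd1, Nat.mul_div_cancel_left m'' hℓ.pos] at e1
        rw [if_pos hd2, Nat.mul_assoc ℓ m'' n, Nat.mul_div_cancel_left (m'' * n) hℓ.pos,
          ← Nat.mul_assoc ℓ m'' n, ih (ℓ * m'') hm'lt n hcop', ih m'' hm''lt n hcop''] at e2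
        have e3 : a (ℓ * (ℓ * m'') * n) = a (ℓ * (ℓ * m'' * n)) := by
          rw [Nat.mul_assoc]
        rw [e3]
        linear_combination e2 - a n * e1
      · have e1 := hR ℓ hℓ m'
        have e2 := hR ℓ hℓ (m' * n)
        have hd2 : ¬ ℓ ∣ m' * n := by
          intro hd
          rcases (Nat.Prime.dvd_mul hℓ).mp hd with hd | hd
          · exact hℓm' hd
          · exact hℓn hd
        rw [if_neg hℓm'] at e1
        rw [if_neg hd2, ih m' hm'lt n hcop'] at e2
        have e3 : a (ℓ * m' * n) = a (ℓ * (m' * n)) := by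
          rw [Nat.mul_assoc]
        rw [e3]
        linear_combination e2 - a n * e1

/-- A formal Hecke eigensystem satisfies the prime-power recursion. -/
theorem isEigensystem_prime_pow {R : Type*} [CommRing R] {e a : ℕ → R}
    (h : IsEigensystem e a) (ℓ r : ℕ) (hℓ : ℓ.Prime) :
    a (ℓ ^ (r + 2)) = a ℓ * a (ℓ ^ (r + 1)) - e ℓ * a (ℓ ^ r) := by
  have e1 := h.2 ℓ hℓ (ℓ ^ (r + 1))
  have hd : ℓ ∣ ℓ ^ (r + 1) := dvd_pow_self ℓ (Nat.succ_ne_zero r)
  have hdiv : ℓ ^ (r + 1) / ℓ = ℓ ^ r := by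
    rw [pow_succ, Nat.mul_div_cancel _ hℓ.pos]
  have hmul : ℓ * ℓ ^ (r + 1) = ℓ ^ (r + 2) := by
    rw [pow_succ ℓ (r + 1), mul_comm]
  rw [if_pos hd, hdiv, hmul] at e1
  linear_combination e1

/-- A formal Hecke eigensystem is recursive. -/
theorem isRecursive_of_isEigensystem {R : Type*} [CommRing R] {e a : ℕ → R}
    (h : IsEigensystem e a) : IsRecursive e a :=
  ⟨h.1, isEigensystem_mul_of_coprime h, fun ℓ r hℓ => isEigensystem_prime_pow h ℓ r hℓ⟩

end Fermat.Agent.S49
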